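import Fermat.Agent.Lib.FrobRel.H230Translate

/-!
# Frobenius relation: from the generic point to all points (helper230)

`F` a finite field with `q` elements, `W` a Weierstrass curve over `F` with `Δ ≠ 0`.
For a field `L` over `F`, `frobPt W L` is the `q`-power Frobenius on `(W⁄L).Point` and
`frobPsi W L a = Φ² - a Φ + q`.

Main result `frobPsi_eq_zero_of_generic`: if `frobPsi` sends the generic point of `W` over the
function field of `W⁄κ` (`κ` algebraically closed) to a constant point, then
`frobPsi W κ a T = 0` for all `T : (W⁄κ).Point`; and `frobPsi_eq_zero` transports this to all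
fields `L` over `F`.
-/

open WeierstrassCurve Polynomial
open scoped Polynomial.Bivariate WeierstrassCurve.Affine

namespace Fermat.Agent.Lib.FrobRel.H230

universe u v w

variable {F : Type u} [Field F] [Fintype F] (W : WeierstrassCurve F)

section Defs

variable (L : Type v) [Field L] [Algebra F L] [DecidableEq L]

/-- The `#F`-power Frobenius endomorphism of the group of `L`-points of `W`. -/
noncomputable def frobPt : (W⁄L).Point →+ (W⁄L).Point :=
  Affine.Point.map (W' := W) (S := F) (FiniteField.frobeniusAlgHom F L)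

/-- `Φ² - a Φ + #F` on the group of `L`-points of `W`. -/
noncomputable def frobPsi (a : ℤ) : (W⁄L).Point →+ (W⁄L).Point :=
  (frobPt W L).comp (frobPt W L) - a • frobPt W L
    + (Fintype.card F : ℤ) • AddMonoidHom.id (W⁄L).Point

lemma frobPsi_apply (a : ℤ) (P : (W⁄L).Point) :
    frobPsi W L a P = frobPt W L (frobPt W L P) - a • frobPt W L P
      + (Fintype.card F : ℤ) • P :=
  rfl

lemma frobPt_zero : frobPt W L 0 = 0 := map_zero _

lemma frobPt_some {x y : L} (h : (W⁄L).Nonsingular x y) :
    frobPt W L (Affine.Point.some x y h)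
      = Affine.Point.some (x ^ Fintype.card F) (y ^ Fintype.card F)
          ((Affine.baseChange_nonsingular (W := W) (f := FiniteField.frobeniusAlgHom F L)
            (FiniteField.frobeniusAlgHom F L).injective x y).mpr h) :=
  rfl

end Defs

section Naturality

variable {L : Type v} [Field L] [Algebra F L] [DecidableEq L]
variable {L' : Type w} [Field L'] [Algebra F L'] [DecidableEq L']

/-- Frobenius commutes with `Point.map`. -/
lemma frobPt_map (g : L →ₐ[F] L') (P : (W⁄L).Point) :
    frobPt W L' (Affine.Point.map (W' := W) g P) = Affine.Point.map (W' := W) g (frobPt W L P) := by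
  rw [frobPt, frobPt, Affine.Point.map_map, Affine.Point.map_map]
  have hcomp : (FiniteField.frobeniusAlgHom F L').comp g
      = g.comp (FiniteField.frobeniusAlgHom F L) := by
    ext x
    simp [FiniteField.coe_frobeniusAlgHom]
  rw [hcomp]

/-- `Φ² - a Φ + q` commutes with `Point.map`. -/
lemma frobPsi_map (a : ℤ) (g : L →ₐ[F] L') (P : (W⁄L).Point) :
    frobPsi W L' a (Affine.Point.map (W' := W) g P)
      = Affine.Point.map (W' := W) g (frobPsi W L a P) := by
  simp only [frobPsi_apply, frobPt_map, map_add, map_sub, map_zsmul]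

end Naturality

/-- `Point.map` only depends on the underlying function of the algebra homomorphism. -/
lemma map_congr_fun {R : Type*} {S S' : Type*} {L L' : Type*} [CommRing R] [CommRing S]
    [CommRing S'] [Field L] [Field L'] {W' : WeierstrassCurve.Affine R} [DecidableEq L]
    [DecidableEq L'] [Algebra R S] [Algebra R L] [Algebra S L] [IsScalarTower R S L]
    [Algebra R L'] [Algebra S L'] [IsScalarTower R S L'] [Algebra R S'] [Algebra S' L]
    [IsScalarTower R S' L] [Algebra S' L'] [IsScalarTower R S' L']
    (f : L →ₐ[S] L') (f' : L →ₐ[S'] L') (hf : ∀ x, f x = f' x) (P : (W'⁄L).Point) :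
    Affine.Point.map (W' := W') f P = Affine.Point.map (W' := W') f' P := by
  rcases P with _ | ⟨x, y, h⟩
  · rfl
  · simp only [Affine.Point.map_some, hf]

omit [Fintype F] in
lemma baseChange_Δ_ne_zero' (hΔ : W.Δ ≠ 0) (L : Type v) [Field L] [Algebra F L] :
    (W⁄L).Δ ≠ 0 := by
  show (WeierstrassCurve.map W (algebraMap F L)).Δ ≠ 0
  rw [WeierstrassCurve.map_Δ]
  exact (map_ne_zero_iff _ (algebraMap F L).injective).mpr hΔ

section Main

variable (κ : Type v) [Field κ] [Algebra F κ] [IsAlgClosed κ] [DecidableEq κ]
  [DecidableEq (FF W κ)]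

/-- **Frobenius relation, generic to all points.** If `Φ² - a Φ + q` sends the generic point of
`W` over the function field of `W⁄κ` to a constant point, then it vanishes on all `κ`-points. -/
theorem frobPsi_eq_zero_of_generic (hΔ : (W⁄κ).Δ ≠ 0) (a : ℤ) (C : (W⁄κ).Point)
    (hC : frobPsi W (FF W κ) a (genericPoint W κ hΔ) = bc W κ C) (T : (W⁄κ).Point) :
    frobPsi W κ a T = 0 := by
  refine eq_zero_of_generic_const W κ hΔ (frobPsi W (FF W κ) a) (frobPsi W κ a) ?_ ?_ C hC T
  · intro σ P
    rw [map_congr_fun σ (σ.restrictScalars F) (fun _ => rfl), frobPsi_map,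
      map_congr_fun σ (σ.restrictScalars F) (fun _ => rfl)]
  · intro T
    show frobPsi W (FF W κ) a (Affine.Point.map (W' := W) (Algebra.ofId κ (FF W κ)) T)
      = Affine.Point.map (W' := W) (Algebra.ofId κ (FF W κ)) (frobPsi W κ a T)
    rw [map_congr_fun (Algebra.ofId κ (FF W κ)) ((Algebra.ofId κ (FF W κ)).restrictScalars F)
      (fun _ => rfl), frobPsi_map,
      map_congr_fun (Algebra.ofId κ (FF W κ)) ((Algebra.ofId κ (FF W κ)).restrictScalars F)
      (fun _ => rfl)]

end Main

section Final

/-- A point is *constant* if it is zero or has `x`-coordinate algebraic over `F`. -/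
def IsConstPt {K : Type v} [Field K] [Algebra F K] (P : (W⁄K).Point) : Prop :=
  P = 0 ∨ ∃ (x y : K) (h : (W⁄K).Nonsingular x y), P = Affine.Point.some x y h ∧ IsAlgebraic F x

omit [Fintype F] in
lemma isConstPt_baseChange {K : Type v} [Field K] [Algebra F K] [DecidableEq F] [DecidableEq K]
    (C : (W⁄F).Point) : IsConstPt W (Affine.Point.baseChange (W' := W) F K C) := by
  rcases C with _ | ⟨c, d, hcd⟩
  · exact Or.inl rfl
  · exact Or.inr ⟨_, _, _, rfl, isAlgebraic_algebraMap c⟩

omit [Fintype F] in
/-- Constancy is reflected and preserved by `Point.map`. -/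
lemma isConstPt_map_iff {K : Type v} [Field K] [Algebra F K] [DecidableEq K]
    {K' : Type w} [Field K'] [Algebra F K'] [DecidableEq K'] (g : K →ₐ[F] K')
    (P : (W⁄K).Point) : IsConstPt W (Affine.Point.map (W' := W) g P) ↔ IsConstPt W P := by
  rcases P with _ | ⟨x, y, h⟩
  · exact ⟨fun _ => Or.inl rfl, fun _ => Or.inl rfl⟩
  · rw [Affine.Point.map_some]
    constructor
    · rintro (h0 | ⟨x₁, y₁, h₁, he, halg⟩)
      · exact absurd h0 (Affine.Point.some_ne_zero _)
      · have hx : g x = x₁ := ((Affine.Point.some.injEq ..).mp he).1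
        refine Or.inr ⟨x, y, h, rfl, ?_⟩
        rw [← hx] at halg
        exact (isAlgebraic_algHom_iff g g.injective).mp halg
    · rintro (h0 | ⟨x₁, y₁, h₁, he, halg⟩)
      · exact absurd h0 (Affine.Point.some_ne_zero _)
      · have hx : x = x₁ := ((Affine.Point.some.injEq ..).mp he).1
        refine Or.inr ⟨g x, g y, _, rfl, ?_⟩
        rw [← hx] at halg
        exact halg.algHom g

/-- **Frobenius relation from one generic point.** Let `F` be a finite field with `q` elements,
`W` a Weierstrass curve over `F` with `Δ ≠ 0`, `K` a field over `F` and `P = (x, y)` a point of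
`W` over `K` with `x` transcendental over `F`. If `(Φ² - a Φ + q) P` is a constant point
(zero, or with `x`-coordinate algebraic over `F`), then `Φ² - a Φ + q = 0` on `(W⁄L).Point` for
every field `L` over `F`. -/
theorem frobPsi_eq_zero (hΔ : W.Δ ≠ 0) {K : Type v} [Field K] [Algebra F K] [DecidableEq K]
    {x y : K} (h : (W⁄K).Nonsingular x y) (hx : Transcendental F x) (a : ℤ)
    (hC : IsConstPt W (frobPsi W K a (Affine.Point.some x y h)))
    {L : Type w} [Field L] [Algebra F L] [DecidableEq L] (T : (W⁄L).Point) :
    frobPsi W L a T = 0 := by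
  classical
  -- the generic point over the function field of `W⁄F`
  have hΔF : (W⁄F).Δ ≠ 0 := baseChange_Δ_ne_zero' W hΔ F
  have hG : IsConstPt W (frobPsi W (FF W F) a (genericPoint W F hΔF)) := by
    rw [← isConstPt_map_iff W (sigma F h.1 hx), ← frobPsi_map, map_sigma_genericPoint F hΔF h hx]
    exact hC
  -- the generic point over the function field of `W⁄κ`, `κ` an algebraic closure of `L`
  have hΔκ : (W⁄(AlgebraicClosure L)).Δ ≠ 0 := baseChange_Δ_ne_zero' W hΔ (AlgebraicClosure L)
  have hxκ : Transcendental F (gx W (AlgebraicClosure L)) :=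
    (gx_transcendental W (AlgebraicClosure L)).restrictScalars
      (algebraMap F (AlgebraicClosure L)).injective
  have hGκ : IsConstPt W (frobPsi W (FF W (AlgebraicClosure L)) a
      (genericPoint W (AlgebraicClosure L) hΔκ)) := by
    have hj : Affine.Point.map (W' := W)
        (sigma F (generic_nonsingular W (AlgebraicClosure L) hΔκ).1 hxκ) (genericPoint W F hΔF)
        = genericPoint W (AlgebraicClosure L) hΔκ :=
      map_sigma_genericPoint F hΔF (generic_nonsingular W (AlgebraicClosure L) hΔκ) hxκ
    rw [← hj, frobPsi_map, isConstPt_map_iff]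
    exact hG
  obtain ⟨C, hCκ⟩ : ∃ C : (W⁄(AlgebraicClosure L)).Point,
      frobPsi W (FF W (AlgebraicClosure L)) a (genericPoint W (AlgebraicClosure L) hΔκ)
        = bc W (AlgebraicClosure L) C := by
    rcases hGκ with h0 | ⟨x₁, y₁, h₁, he, halg⟩
    · exact ⟨0, h0.trans (map_zero _).symm⟩
    · have halg' : IsAlgebraic (AlgebraicClosure L) x₁ := halg.extendScalars
        (algebraMap F (AlgebraicClosure L)).injective
      obtain ⟨c, hc⟩ := mem_range_of_isAlgebraic (AlgebraicClosure L) halg'
      obtain ⟨C, hC'⟩ := exists_of_x_const W (AlgebraicClosure L) h₁ c hc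
      exact ⟨C, he.trans hC'⟩
  have hκ := frobPsi_eq_zero_of_generic W (AlgebraicClosure L) hΔκ a C hCκ
  -- descend to `L`
  have hL := hκ (Affine.Point.map (W' := W) (IsScalarTower.toAlgHom F L (AlgebraicClosure L)) T)
  rw [frobPsi_map] at hL
  exact Affine.Point.map_injective (W' := W) (IsScalarTower.toAlgHom F L (AlgebraicClosure L))
    (hL.trans (map_zero _).symm)

/-- Variant of `frobPsi_eq_zero` with the constant point given as an `F`-point. -/
theorem frobPsi_eq_zero' (hΔ : W.Δ ≠ 0) [DecidableEq F] {K : Type v} [Field K] [Algebra F K]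
    [DecidableEq K] {x y : K} (h : (W⁄K).Nonsingular x y) (hx : Transcendental F x) (a : ℤ)
    (C : (W⁄F).Point)
    (hC : frobPsi W K a (Affine.Point.some x y h) = Affine.Point.baseChange (W' := W) F K C)
    {L : Type w} [Field L] [Algebra F L] [DecidableEq L] (T : (W⁄L).Point) :
    frobPsi W L a T = 0 :=
  frobPsi_eq_zero W hΔ h hx a (hC ▸ isConstPt_baseChange W C) T

end Final

end Fermat.Agent.Lib.FrobRel.H230
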