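import Mathlib

/-!
# Translation automorphisms of the function field of a Weierstrass curve (helper230)

Setting: `W` a Weierstrass curve over a commutative ring `R`, `k` a field over `R` with
`(W⁄k).Δ ≠ 0`, `FF W k = (W⁄k).FunctionField`, `P₀ = (x, y)` the tautological ("generic")
point of `W` over `FF W k`.

* `sigma`: for a field `L` over `k` and a point `(x', y')` of `W` over `L` with `x'`
  transcendental over `k`, the `k`-algebra homomorphism `FF W k →ₐ[k] L` sending the generic
  point to `(x', y')`.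
* `exists_translation`: if `κ` is algebraically closed, then for every `T : (W⁄κ).Point` there is
  a `κ`-algebra endomorphism `σ` of `FF W κ` with `Point.map σ P₀ = P₀ + T`.
* `eq_zero_of_generic_const`: a family of additive endomorphisms of the points of `W` that
  commutes with `Point.map` and sends the generic point to a constant point vanishes on every
  `κ`-point.
-/

open WeierstrassCurve Polynomial
open scoped Polynomial.Bivariate WeierstrassCurve.Affine

namespace Fermat.Agent.Lib.FrobRel.H230

universe u v w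

variable {R : Type u} [CommRing R] (W : WeierstrassCurve R) (k : Type v) [Field k] [Algebra R k]

/-- The function field of `W` over `k`. -/
abbrev FF : Type v := (W⁄k).FunctionField

/-- The coordinate ring of `W` over `k`. -/
abbrev CR : Type v := (W⁄k).CoordinateRing

/-- The `x`-coordinate of the generic point. -/
noncomputable def gx : FF W k :=
  algebraMap (CR W k) (FF W k) (Affine.CoordinateRing.mk (W⁄k) (C X))

/-- The `y`-coordinate of the generic point. -/
noncomputable def gy : FF W k :=
  algebraMap (CR W k) (FF W k) (Affine.CoordinateRing.mk (W⁄k) Y)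

lemma algebraMap_FF_eq (c : k) :
    algebraMap k (FF W k) c
      = algebraMap (CR W k) (FF W k) (Affine.CoordinateRing.mk (W⁄k) (C (C c))) := by
  rw [IsScalarTower.algebraMap_apply k (CR W k) (FF W k)]
  rfl

/-- The Weierstrass relation in the coordinate ring. -/
lemma mk_relation :
    (Affine.CoordinateRing.mk (W⁄k) Y) ^ 2
      + Affine.CoordinateRing.mk (W⁄k) (C (C ((W⁄k).a₁))) * Affine.CoordinateRing.mk (W⁄k) (C X)
          * Affine.CoordinateRing.mk (W⁄k) Y
      + Affine.CoordinateRing.mk (W⁄k) (C (C ((W⁄k).a₃))) * Affine.CoordinateRing.mk (W⁄k) Y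
    = (Affine.CoordinateRing.mk (W⁄k) (C X)) ^ 3
      + Affine.CoordinateRing.mk (W⁄k) (C (C ((W⁄k).a₂)))
          * (Affine.CoordinateRing.mk (W⁄k) (C X)) ^ 2
      + Affine.CoordinateRing.mk (W⁄k) (C (C ((W⁄k).a₄))) * Affine.CoordinateRing.mk (W⁄k) (C X)
      + Affine.CoordinateRing.mk (W⁄k) (C (C ((W⁄k).a₆))) := by
  have h : Affine.CoordinateRing.mk (W⁄k)
      (Y ^ 2 + C (C (W⁄k).a₁ * X + C (W⁄k).a₃) * Y
        - C (X ^ 3 + C (W⁄k).a₂ * X ^ 2 + C (W⁄k).a₄ * X + C (W⁄k).a₆)) = 0 :=
    AdjoinRoot.mk_self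
  simp only [map_add, map_sub, map_mul, map_pow] at h
  rw [← sub_eq_zero]
  rw [← h]
  ring

/-! ### Coefficients of base changes along a tower -/

section Tower

variable {k}
variable (L : Type w) [Field L] [Algebra R L] [Algebra k L] [IsScalarTower R k L]

lemma algebraMap_tower (c : R) : algebraMap R L c = algebraMap k L (algebraMap R k c) :=
  IsScalarTower.algebraMap_apply R k L c

lemma baseChange_a₁ : (W⁄L).a₁ = algebraMap k L (W⁄k).a₁ := algebraMap_tower L W.a₁

lemma baseChange_a₂ : (W⁄L).a₂ = algebraMap k L (W⁄k).a₂ := algebraMap_tower L W.a₂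

lemma baseChange_a₃ : (W⁄L).a₃ = algebraMap k L (W⁄k).a₃ := algebraMap_tower L W.a₃

lemma baseChange_a₄ : (W⁄L).a₄ = algebraMap k L (W⁄k).a₄ := algebraMap_tower L W.a₄

lemma baseChange_a₆ : (W⁄L).a₆ = algebraMap k L (W⁄k).a₆ := algebraMap_tower L W.a₆

lemma baseChange_eq_map : (W⁄L) = (W⁄k).map (algebraMap k L) :=
  (Affine.map_baseChange (R := R) (S := k) (A := k) (B := L) W (Algebra.ofId k L)).symm

lemma baseChange_Δ_ne_zero (hΔ : (W⁄k).Δ ≠ 0) : (W⁄L).Δ ≠ 0 := by
  rw [baseChange_eq_map (k := k)]
  show (WeierstrassCurve.map (W⁄k) (algebraMap k L)).Δ ≠ 0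
  rw [WeierstrassCurve.map_Δ]
  exact (map_ne_zero_iff _ (algebraMap k L).injective).mpr hΔ

end Tower

/-! ### The generic point -/

lemma generic_equation : (W⁄(FF W k)).Equation (gx W k) (gy W k) := by
  rw [Affine.equation_iff]
  have h := congrArg (algebraMap (CR W k) (FF W k)) (mk_relation W k)
  simp only [map_add, map_mul, map_pow, ← algebraMap_FF_eq] at h
  rw [baseChange_a₁ (k := k), baseChange_a₂ (k := k), baseChange_a₃ (k := k),
    baseChange_a₄ (k := k), baseChange_a₆ (k := k)]
  exact h

lemma gx_eq_algebraMap_X : gx W k = algebraMap k[X] (FF W k) X := by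
  rw [IsScalarTower.algebraMap_apply k[X] (CR W k) (FF W k)]
  rfl

lemma algebraMap_poly_FF_injective : Function.Injective (algebraMap k[X] (FF W k)) := by
  rw [IsScalarTower.algebraMap_eq k[X] (CR W k) (FF W k)]
  exact (IsFractionRing.injective (CR W k) (FF W k)).comp
    (FaithfulSMul.algebraMap_injective k[X] (CR W k))

/-- The `x`-coordinate of the generic point is transcendental over the base field. -/
lemma gx_transcendental : Transcendental k (gx W k) := by
  rw [gx_eq_algebraMap_X]
  exact (transcendental_algebraMap_iff (algebraMap_poly_FF_injective W k)).mpr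
    (Polynomial.transcendental_X k)

/-- The `x`-coordinate of the generic point is not a constant. -/
lemma gx_not_const (c : k) : gx W k ≠ algebraMap k (FF W k) c := by
  intro h
  exact gx_transcendental W k (h ▸ isAlgebraic_algebraMap c)

lemma generic_nonsingular (hΔ : (W⁄k).Δ ≠ 0) :
    (W⁄(FF W k)).Nonsingular (gx W k) (gy W k) :=
  (Affine.equation_iff_nonsingular_of_Δ_ne_zero (baseChange_Δ_ne_zero W (FF W k) hΔ)).mp
    (generic_equation W k)

/-- The generic point of `W` over the function field of `W⁄k`. -/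
noncomputable def genericPoint (hΔ : (W⁄k).Δ ≠ 0) : (W⁄(FF W k)).Point :=
  Affine.Point.some (gx W k) (gy W k) (generic_nonsingular W k hΔ)

/-! ### The homomorphism attached to a point with transcendental `x`-coordinate -/

section Lift

variable {W}
variable {L : Type w} [Field L] [Algebra R L] [Algebra k L] [IsScalarTower R k L]
variable {x' y' : L}

lemma eval₂_polynomial_eq_zero (heq : (W⁄L).Equation x' y') :
    ((W⁄k).polynomial).eval₂ ((Polynomial.aeval x' : k[X] →ₐ[k] L) : k[X] →+* L) y' = 0 := by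
  rw [Affine.equation_iff] at heq
  rw [baseChange_a₁ (k := k), baseChange_a₂ (k := k), baseChange_a₃ (k := k),
    baseChange_a₄ (k := k), baseChange_a₆ (k := k)] at heq
  show (Y ^ 2 + C (C (W⁄k).a₁ * X + C (W⁄k).a₃) * Y
        - C (X ^ 3 + C (W⁄k).a₂ * X ^ 2 + C (W⁄k).a₄ * X + C (W⁄k).a₆) : k[X][Y]).eval₂
      ((Polynomial.aeval x' : k[X] →ₐ[k] L) : k[X] →+* L) y' = 0
  simp only [eval₂_add, eval₂_sub, eval₂_mul, eval₂_pow, eval₂_X, eval₂_C, RingHom.coe_coe,
    map_add, map_mul, map_pow, aeval_X, aeval_C]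
  linear_combination heq

/-- The `k`-algebra homomorphism from the coordinate ring sending `(X, Y)` to `(x', y')`. -/
noncomputable def liftCR (heq : (W⁄L).Equation x' y') : CR W k →ₐ[k] L :=
  AdjoinRoot.liftAlgHom (W⁄k).polynomial (Polynomial.aeval x' : k[X] →ₐ[k] L) y'
    (eval₂_polynomial_eq_zero k heq)

lemma liftCR_mk (heq : (W⁄L).Equation x' y') (f : k[X][Y]) :
    liftCR k heq (Affine.CoordinateRing.mk (W⁄k) f)
      = f.eval₂ ((Polynomial.aeval x' : k[X] →ₐ[k] L) : k[X] →+* L) y' :=
  AdjoinRoot.liftAlgHom_mk _ _ _ _ f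

lemma liftCR_C (heq : (W⁄L).Equation x' y') (p : k[X]) :
    liftCR k heq (Affine.CoordinateRing.mk (W⁄k) (C p)) = Polynomial.aeval x' p := by
  rw [liftCR_mk, eval₂_C]; rfl

lemma liftCR_X (heq : (W⁄L).Equation x' y') :
    liftCR k heq (Affine.CoordinateRing.mk (W⁄k) (C X)) = x' := by
  rw [liftCR_C, aeval_X]

lemma liftCR_Y (heq : (W⁄L).Equation x' y') :
    liftCR k heq (Affine.CoordinateRing.mk (W⁄k) Y) = y' := by
  rw [liftCR_mk, eval₂_X]

lemma liftCR_injective (heq : (W⁄L).Equation x' y') (hx : Transcendental k x') :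
    Function.Injective (liftCR k heq) := by
  rw [injective_iff_map_eq_zero]
  intro z hz
  obtain ⟨p, q, rfl⟩ := Affine.CoordinateRing.exists_smul_basis_eq z
  by_contra hne
  have : Module.Finite k[X] (CR W k) :=
    Module.Finite.of_basis (Affine.CoordinateRing.basis (W⁄k))
  have hN : Algebra.norm k[X] (p • (1 : CR W k) + q • Affine.CoordinateRing.mk (W⁄k) Y) ≠ 0 :=
    Algebra.norm_ne_zero_iff.mpr hne
  have hcoe := Affine.CoordinateRing.coe_norm_smul_basis (W' := W⁄k) p q
  have hfac : Affine.CoordinateRing.mk (W⁄k) (C p + C q * Y)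
      = p • (1 : CR W k) + q • Affine.CoordinateRing.mk (W⁄k) Y := by
    simp only [Affine.CoordinateRing.smul, map_add, map_mul, mul_one]
  have h0 : Polynomial.aeval x'
      (Algebra.norm k[X] (p • (1 : CR W k) + q • Affine.CoordinateRing.mk (W⁄k) Y)) = 0 := by
    rw [← liftCR_C k heq]
    have h1 : Affine.CoordinateRing.mk (W⁄k) (C (Algebra.norm k[X]
        (p • (1 : CR W k) + q • Affine.CoordinateRing.mk (W⁄k) Y)))
        = Affine.CoordinateRing.mk (W⁄k) ((C p + C q * X) *
            (C p + C q * (-(Y : k[X][Y]) - C (C (W⁄k).a₁ * X + C (W⁄k).a₃)))) := hcoe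
    rw [h1, map_mul, map_mul, hfac, hz, zero_mul]
  exact hx ⟨_, hN, h0⟩

/-- The `k`-algebra homomorphism from the function field of `W⁄k` to `L` sending the generic
point `(x, y)` to a point `(x', y')` with `x'` transcendental over `k`. -/
noncomputable def sigma (heq : (W⁄L).Equation x' y') (hx : Transcendental k x') :
    FF W k →ₐ[k] L :=
  IsFractionRing.liftAlgHom (g := liftCR k heq) (liftCR_injective k heq hx)

lemma sigma_gx (heq : (W⁄L).Equation x' y') (hx : Transcendental k x') :
    sigma k heq hx (gx W k) = x' := by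
  rw [sigma, IsFractionRing.liftAlgHom_apply, gx, IsFractionRing.lift_algebraMap]
  exact liftCR_X k heq

lemma sigma_gy (heq : (W⁄L).Equation x' y') (hx : Transcendental k x') :
    sigma k heq hx (gy W k) = y' := by
  rw [sigma, IsFractionRing.liftAlgHom_apply, gy, IsFractionRing.lift_algebraMap]
  exact liftCR_Y k heq

/-- `Point.map (sigma ..)` sends the generic point to the given point. -/
lemma map_sigma_genericPoint [DecidableEq (FF W k)] [DecidableEq L] (hΔ : (W⁄k).Δ ≠ 0)
    (h : (W⁄L).Nonsingular x' y') (hx : Transcendental k x') :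
    Affine.Point.map (W' := W) (sigma k h.1 hx) (genericPoint W k hΔ)
      = Affine.Point.some x' y' h := by
  rw [genericPoint, Affine.Point.map_some]
  congr 1
  · exact sigma_gx k h.1 hx
  · exact sigma_gy k h.1 hx

end Lift

/-! ### Algebraically closed base field: constant points -/

section AlgClosed

variable (κ : Type v) [Field κ] [Algebra R κ]
variable {L : Type w} [Field L] [Algebra R L] [Algebra κ L] [IsScalarTower R κ L]

lemma mem_range_of_isAlgebraic [IsAlgClosed κ] {x' : L} (halg : IsAlgebraic κ x') :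
    ∃ c : κ, x' = algebraMap κ L c := by
  have hint : IsIntegral κ x' := halg.isIntegral
  have hdeg := IsAlgClosed.degree_eq_one_of_irreducible κ (minpoly.irreducible hint)
  obtain ⟨c, hc⟩ := minpoly.mem_range_of_degree_eq_one κ x' hdeg
  exact ⟨c, hc.symm⟩

lemma transcendental_of_not_const [IsAlgClosed κ] {x' : L}
    (hx : ∀ c : κ, x' ≠ algebraMap κ L c) : Transcendental κ x' := by
  intro halg
  obtain ⟨c, hc⟩ := mem_range_of_isAlgebraic κ halg
  exact hx c hc

lemma exists_y_const [IsAlgClosed κ] {x' y' : L} (h : (W⁄L).Equation x' y') (c : κ)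
    (hc : x' = algebraMap κ L c) : ∃ d : κ, y' = algebraMap κ L d := by
  rw [Affine.equation_iff] at h
  set u : κ := (W⁄κ).a₁ * c + (W⁄κ).a₃ with hu
  set v : κ := c ^ 3 + (W⁄κ).a₂ * c ^ 2 + (W⁄κ).a₄ * c + (W⁄κ).a₆ with hv
  obtain ⟨d, hd⟩ : ∃ d : κ, d ^ 2 + u * d - v = 0 := by
    have hdeg : (X ^ 2 + C u * X - C v : κ[X]).degree ≠ 0 := by
      have : (X ^ 2 + C u * X - C v : κ[X]).degree = 2 := by
        compute_degree!
      rw [this]; decide
    obtain ⟨d, hd⟩ := IsAlgClosed.exists_root (X ^ 2 + C u * X - C v : κ[X]) hdeg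
    exact ⟨d, by simpa using hd⟩
  have hprod : (y' - algebraMap κ L d) * (y' + algebraMap κ L (u + d)) = 0 := by
    have hd' := congrArg (algebraMap κ L) hd
    simp only [map_add, map_sub, map_mul, map_pow, map_zero, hu, hv] at hd' ⊢
    rw [baseChange_a₁ (k := κ), baseChange_a₂ (k := κ), baseChange_a₃ (k := κ),
      baseChange_a₄ (k := κ), baseChange_a₆ (k := κ), hc] at h
    linear_combination h - hd'
  rcases mul_eq_zero.mp hprod with h1 | h1
  · exact ⟨d, sub_eq_zero.mp h1⟩
  · exact ⟨-(u + d), by rw [map_neg]; exact eq_neg_of_add_eq_zero_left h1⟩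

end AlgClosed

/-! ### Translation automorphisms -/

section Translation

variable (κ : Type v) [Field κ] [Algebra R κ] [DecidableEq κ] [DecidableEq (FF W κ)]

/-- The base change map on points from `κ` to the function field. -/
noncomputable abbrev bc : (W⁄κ).Point →+ (W⁄(FF W κ)).Point :=
  Affine.Point.baseChange (W' := W) κ (FF W κ)

lemma bc_some {c d : κ} (h : (W⁄κ).Nonsingular c d) :
    bc W κ (Affine.Point.some c d h)
      = Affine.Point.some (algebraMap κ (FF W κ) c) (algebraMap κ (FF W κ) d)
          ((Affine.baseChange_nonsingular (W := W) (f := Algebra.ofId κ (FF W κ))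
            (Algebra.ofId κ (FF W κ)).injective c d).mpr h) :=
  rfl

lemma bc_injective : Function.Injective (bc W κ) :=
  Affine.Point.map_injective (W' := W) (Algebra.ofId κ (FF W κ))

lemma exists_of_x_const [IsAlgClosed κ] {x' y' : FF W κ}
    (h : (W⁄(FF W κ)).Nonsingular x' y') (c : κ) (hc : x' = algebraMap κ (FF W κ) c) :
    ∃ T : (W⁄κ).Point, Affine.Point.some x' y' h = bc W κ T := by
  obtain ⟨d, hd⟩ := exists_y_const W κ h.1 c hc
  subst hc hd
  have h' : (W⁄κ).Nonsingular c d :=
    (Affine.baseChange_nonsingular (W := W) (f := Algebra.ofId κ (FF W κ))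
      (Algebra.ofId κ (FF W κ)).injective c d).mp h
  exact ⟨Affine.Point.some c d h', rfl⟩

/-- The generic point is not a constant point. -/
lemma generic_ne_bc (hΔ : (W⁄κ).Δ ≠ 0) (T : (W⁄κ).Point) : genericPoint W κ hΔ ≠ bc W κ T := by
  rcases T with _ | ⟨c, d, hcd⟩
  · intro h
    exact Affine.Point.some_ne_zero _ h
  · intro h
    rw [bc_some, genericPoint] at h
    have := (Affine.Point.some.injEq ..).mp h
    exact gx_not_const W κ c this.1

/-- The translate of the generic point by a constant point is an affine point whose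
`x`-coordinate is not constant. -/
lemma generic_add_bc [IsAlgClosed κ] (hΔ : (W⁄κ).Δ ≠ 0) (T : (W⁄κ).Point) :
    ∃ (x' y' : FF W κ) (h : (W⁄(FF W κ)).Nonsingular x' y'),
      genericPoint W κ hΔ + bc W κ T = Affine.Point.some x' y' h ∧
      ∀ c : κ, x' ≠ algebraMap κ (FF W κ) c := by
  rcases hQ : genericPoint W κ hΔ + bc W κ T with _ | ⟨x', y', h⟩
  · exfalso
    have h0 : genericPoint W κ hΔ + bc W κ T = 0 := hQ
    have : genericPoint W κ hΔ = bc W κ (-T) := by
      rw [map_neg]
      exact eq_neg_of_add_eq_zero_left h0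
    exact generic_ne_bc W κ hΔ _ this
  · refine ⟨x', y', h, rfl, fun c hc => ?_⟩
    obtain ⟨Q₀, hQ₀⟩ := exists_of_x_const W κ h c hc
    have : genericPoint W κ hΔ = bc W κ (Q₀ - T) := by
      rw [map_sub, ← hQ₀, ← hQ, add_sub_cancel_right]
    exact generic_ne_bc W κ hΔ _ this

variable [IsAlgClosed κ]

/-- **Translation automorphism.** For every `κ`-point `T` there is a `κ`-algebra endomorphism
`σ` of the function field such that `σ` maps the generic point `P₀` to `P₀ + T`. -/
theorem exists_translation (hΔ : (W⁄κ).Δ ≠ 0) (T : (W⁄κ).Point) :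
    ∃ σ : FF W κ →ₐ[κ] FF W κ,
      Affine.Point.map (W' := W) σ (genericPoint W κ hΔ) = genericPoint W κ hΔ + bc W κ T := by
  obtain ⟨x', y', h, hQ, hx⟩ := generic_add_bc W κ hΔ T
  exact ⟨sigma κ h.1 (transcendental_of_not_const κ hx),
    (map_sigma_genericPoint κ hΔ h _).trans hQ.symm⟩

/-- **Generic to all points (abstract form).** Let `ψK`, `ψκ` be additive endomorphisms of the
points of `W` over the function field and over `κ`, such that `ψK` commutes with `Point.map σ`
for every `κ`-algebra endomorphism `σ` of the function field, and `ψK` restricts to `ψκ` on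
constant points. If `ψK` sends the generic point to a constant point, then `ψκ = 0`. -/
theorem eq_zero_of_generic_const (hΔ : (W⁄κ).Δ ≠ 0)
    (ψK : (W⁄(FF W κ)).Point →+ (W⁄(FF W κ)).Point) (ψκ : (W⁄κ).Point →+ (W⁄κ).Point)
    (hnat : ∀ (σ : FF W κ →ₐ[κ] FF W κ) (P : (W⁄(FF W κ)).Point),
      ψK (Affine.Point.map (W' := W) σ P) = Affine.Point.map (W' := W) σ (ψK P))
    (hbc : ∀ T : (W⁄κ).Point, ψK (bc W κ T) = bc W κ (ψκ T))
    (C : (W⁄κ).Point) (hC : ψK (genericPoint W κ hΔ) = bc W κ C) (T : (W⁄κ).Point) :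
    ψκ T = 0 := by
  obtain ⟨σ, hσ⟩ := exists_translation W κ hΔ T
  have h1 : ψK (genericPoint W κ hΔ + bc W κ T) = ψK (genericPoint W κ hΔ) := by
    rw [← hσ, hnat, hC]
    exact Affine.Point.map_baseChange (W' := W) σ C
  rw [map_add, hbc] at h1
  have h2 : bc W κ (ψκ T) = 0 := by
    have := congrArg (fun P => P - ψK (genericPoint W κ hΔ)) h1
    simpa using this
  exact bc_injective W κ (h2.trans (map_zero _).symm)

end Translation

end Fermat.Agent.Lib.FrobRel.H230
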